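import Mathlib
import Fermat.Agent.S30.Arith.CorrEquivariant
import Fermat.Prelude.Thm_ModularCurve_coeffMap_qExpand
import Fermat.Agent.S48.B.Defs.Spec

/-!
# PROJECT D (S48), part B, block B5, brick (F) F2: the operators on `J₁(M)` are defined over `ℚ`

Twin of main's `S30/Arith/HeckeGalois` (whose general part `S30/Arith/CorrEquivariant` is level free
and is imported as it stands).  Everything is unconditional: the guarded `corrOp` is `0` when the
inputs of the correspondence are missing, and `diamondAut` is the identity when no diamond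
automorphism exists.

* `corrOp_smul` : the guarded correspondence `corrOp φ ψ` commutes with a pair of intertwining
  semilinear automorphisms;
* `intertwines_alpha1`, `intertwines_beta1` : the degeneracy maps commute with the coefficientwise
  action of `Aut(L/ℚ)`;
* `intertwines_of_rational` : an `L`-algebra homomorphism `L ⊗ F₀ → L ⊗ F₁` which sends the rational
  generators of `F₀` to rational series commutes with the coefficientwise action;
* `intertwines_diamondAut` : the case of the diamond automorphisms;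
* `hecke1_smul`, `heckeStar1_smul`, `diamondPull1_smul`, `diamondPush1_smul` over any `L ⊇ ℚ`;
* `galoisCommSeam1 M : Spec.GaloisCommSeam1 M`.
-/

set_option autoImplicit false

namespace Fermat.Agent.S48.B.Arith.HeckeGalois1

open AlgebraicCurve ModularCurve HahnSeries
open Fermat.Agent.S30.Arith.CorrEquivariant
open Fermat.Agent.S48.B.Defs.Model Fermat.Agent.S48.B.Defs.Spec

/-! ### The guarded correspondence -/

section Corr

variable {K F F' : Type*} [Field K] [Field F] [Field F'] [Algebra K F] [Algebra K F']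

/-- **The guarded correspondence commutes with intertwining semilinear automorphisms.** -/
theorem corrOp_smul {φ ψ : F →ₐ[K] F'} {g : SemilinearAut K F} {g' : SemilinearAut K F'}
    (h : SemilinearAut.IntertwinesAlong (φ : F →+* F') g g')
    (h' : SemilinearAut.IntertwinesAlong (ψ : F →+* F') g g') (x : Pic0 K F) :
    corrOp φ ψ (g • x) = g • corrOp φ ψ x := by
  by_cases hc : CorrInputs φ ψ
  · obtain ⟨hφ, hψ, hP, hfin, hFI, hN⟩ := hc
    have := hP
    rw [corrOp_eq hφ hψ hFI hfin hN]
    exact pic0_correspondence_smul φ hφ ψ hψ hFI hfin hN h h' x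
  · rw [corrOp_of_not hc, AddMonoidHom.zero_apply, AddMonoidHom.zero_apply, smul_zero]

end Corr

/-! ### Rational homomorphisms commute with the coefficientwise action -/

section Rational

variable {L : Type*} [Field L] [Algebra ℚ L]

theorem coeffEmb_algebraMap_rat (r : ℚ) :
    coeffEmb L (algebraMap ℚ (LaurentSeries ℚ) r)
      = algebraMap L (LaurentSeries L) (algebraMap ℚ L r) := by
  rw [algebraMap_laurentSeries_eq_single, algebraMap_laurentSeries_eq_single, coeffEmb,
    coeffMap_single]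

variable {F₀ F₁ : IntermediateField ℚ (LaurentSeries ℚ)}

/-- the rational elements: if the rational generators go to rational series, the image of every
rational element is fixed by the coefficientwise action -/
theorem coeffMap_apply_coeffEmb {S : Set (LaurentSeries ℚ)}
    (δ : laurentBaseChange L (IntermediateField.adjoin ℚ S) →ₐ[L] laurentBaseChange L F₁)
    (hδ : ∀ z (hz : z ∈ S), ∃ z' : LaurentSeries ℚ,
      ((δ ⟨coeffEmb L z, coeffEmb_mem_laurentBaseChange L
        (IntermediateField.subset_adjoin ℚ S hz)⟩ : laurentBaseChange L F₁) : LaurentSeries L)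
        = coeffEmb L z')
    (σ : L ≃ₐ[ℚ] L) (z : LaurentSeries ℚ) (hz : z ∈ IntermediateField.adjoin ℚ S) :
    coeffMap (σ : L →+* L)
        ((δ ⟨coeffEmb L z, coeffEmb_mem_laurentBaseChange L hz⟩ : laurentBaseChange L F₁) :
          LaurentSeries L)
      = ((δ ⟨coeffEmb L z, coeffEmb_mem_laurentBaseChange L hz⟩ : laurentBaseChange L F₁) :
          LaurentSeries L) := by
  induction hz using IntermediateField.adjoin_induction with
  | mem z hz =>
    obtain ⟨z', h⟩ := hδ z hz
    rw [h, coeffMap_coeffEmb]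
  | algebraMap r =>
    have e : (⟨coeffEmb L (algebraMap ℚ (LaurentSeries ℚ) r),
        coeffEmb_mem_laurentBaseChange L (IntermediateField.algebraMap_mem _ r)⟩ :
          laurentBaseChange L (IntermediateField.adjoin ℚ S))
        = algebraMap L _ (algebraMap ℚ L r) := Subtype.ext (coeffEmb_algebraMap_rat r)
    rw [e, δ.commutes]
    show coeffMap (σ : L →+* L) (algebraMap L (LaurentSeries L) (algebraMap ℚ L r))
      = algebraMap L (LaurentSeries L) (algebraMap ℚ L r)
    rw [coeffMap_algebraMap]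
    exact congrArg _ (σ.commutes r)
  | add x y hx hy ihx ihy =>
    have e : (⟨coeffEmb L (x + y), coeffEmb_mem_laurentBaseChange L (add_mem hx hy)⟩ :
          laurentBaseChange L (IntermediateField.adjoin ℚ S))
        = ⟨coeffEmb L x, coeffEmb_mem_laurentBaseChange L hx⟩
          + ⟨coeffEmb L y, coeffEmb_mem_laurentBaseChange L hy⟩ :=
      Subtype.ext (map_add (coeffEmb L) x y)
    rw [e, map_add, AddMemClass.coe_add, map_add, ihx, ihy]
  | inv x hx ihx =>
    have e : (⟨coeffEmb L x⁻¹, coeffEmb_mem_laurentBaseChange L (inv_mem hx)⟩ :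
          laurentBaseChange L (IntermediateField.adjoin ℚ S))
        = (⟨coeffEmb L x, coeffEmb_mem_laurentBaseChange L hx⟩ :
          laurentBaseChange L (IntermediateField.adjoin ℚ S))⁻¹ :=
      Subtype.ext (map_inv₀ (coeffEmb L) x)
    rw [e, map_inv₀, IntermediateField.coe_inv, map_inv₀, ihx]
  | mul x y hx hy ihx ihy =>
    have e : (⟨coeffEmb L (x * y), coeffEmb_mem_laurentBaseChange L (mul_mem hx hy)⟩ :
          laurentBaseChange L (IntermediateField.adjoin ℚ S))
        = ⟨coeffEmb L x, coeffEmb_mem_laurentBaseChange L hx⟩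
          * ⟨coeffEmb L y, coeffEmb_mem_laurentBaseChange L hy⟩ :=
      Subtype.ext (map_mul (coeffEmb L) x y)
    rw [e, map_mul, MulMemClass.coe_mul, map_mul, ihx, ihy]

/-- all elements -/
theorem coeffMap_apply_of_rational {S : Set (LaurentSeries ℚ)}
    (δ : laurentBaseChange L (IntermediateField.adjoin ℚ S) →ₐ[L] laurentBaseChange L F₁)
    (hδ : ∀ z (hz : z ∈ S), ∃ z' : LaurentSeries ℚ,
      ((δ ⟨coeffEmb L z, coeffEmb_mem_laurentBaseChange L
        (IntermediateField.subset_adjoin ℚ S hz)⟩ : laurentBaseChange L F₁) : LaurentSeries L)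
        = coeffEmb L z')
    (σ : L ≃ₐ[ℚ] L) (y : LaurentSeries L)
    (hy : y ∈ laurentBaseChange L (IntermediateField.adjoin ℚ S)) :
    coeffMap (σ : L →+* L) ((δ ⟨y, hy⟩ : laurentBaseChange L F₁) : LaurentSeries L)
      = ((δ ⟨coeffMap (σ : L →+* L) y, coeffMap_mem_laurentBaseChange σ hy⟩ :
          laurentBaseChange L F₁) : LaurentSeries L) := by
  have hy' : y ∈ IntermediateField.adjoin L
      (⇑(coeffEmb L) '' ((IntermediateField.adjoin ℚ S : IntermediateField ℚ (LaurentSeries ℚ)) :
        Set (LaurentSeries ℚ))) := hy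
  revert hy
  induction hy' using IntermediateField.adjoin_induction with
  | mem y hy =>
    obtain ⟨z, hz, rfl⟩ := hy
    intro hy
    have e : (⟨coeffMap (σ : L →+* L) (coeffEmb L z), coeffMap_mem_laurentBaseChange σ hy⟩ :
          laurentBaseChange L (IntermediateField.adjoin ℚ S))
        = ⟨coeffEmb L z, coeffEmb_mem_laurentBaseChange L hz⟩ :=
      Subtype.ext (coeffMap_coeffEmb σ z)
    rw [e]
    exact coeffMap_apply_coeffEmb δ hδ σ z hz
  | algebraMap a =>
    intro hy
    have e₁ : (⟨algebraMap L (LaurentSeries L) a, hy⟩ :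
          laurentBaseChange L (IntermediateField.adjoin ℚ S)) = algebraMap L _ a := rfl
    have e₂ : (⟨coeffMap (σ : L →+* L) (algebraMap L (LaurentSeries L) a),
        coeffMap_mem_laurentBaseChange σ hy⟩ :
          laurentBaseChange L (IntermediateField.adjoin ℚ S)) = algebraMap L _ (σ a) :=
      Subtype.ext (coeffMap_algebraMap (σ : L →+* L) a)
    rw [e₁, e₂, δ.commutes, δ.commutes]
    exact coeffMap_algebraMap (σ : L →+* L) a
  | add x y hx hy ihx ihy =>
    intro hxy
    have hx' : x ∈ laurentBaseChange L (IntermediateField.adjoin ℚ S) := hx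
    have hy' : y ∈ laurentBaseChange L (IntermediateField.adjoin ℚ S) := hy
    have e₁ : (⟨x + y, hxy⟩ : laurentBaseChange L (IntermediateField.adjoin ℚ S))
        = ⟨x, hx'⟩ + ⟨y, hy'⟩ := rfl
    have e₂ : (⟨coeffMap (σ : L →+* L) (x + y), coeffMap_mem_laurentBaseChange σ hxy⟩ :
          laurentBaseChange L (IntermediateField.adjoin ℚ S))
        = ⟨coeffMap (σ : L →+* L) x, coeffMap_mem_laurentBaseChange σ hx'⟩
          + ⟨coeffMap (σ : L →+* L) y, coeffMap_mem_laurentBaseChange σ hy'⟩ :=
      Subtype.ext (map_add (coeffMap (σ : L →+* L)) x y)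
    rw [e₁, e₂, map_add, map_add, AddMemClass.coe_add, AddMemClass.coe_add, map_add,
      ihx hx', ihy hy']
  | inv x hx ihx =>
    intro hxi
    have hx' : x ∈ laurentBaseChange L (IntermediateField.adjoin ℚ S) := hx
    have e₁ : (⟨x⁻¹, hxi⟩ : laurentBaseChange L (IntermediateField.adjoin ℚ S))
        = (⟨x, hx'⟩ : laurentBaseChange L (IntermediateField.adjoin ℚ S))⁻¹ := rfl
    have e₂ : (⟨coeffMap (σ : L →+* L) x⁻¹, coeffMap_mem_laurentBaseChange σ hxi⟩ :
          laurentBaseChange L (IntermediateField.adjoin ℚ S))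
        = (⟨coeffMap (σ : L →+* L) x, coeffMap_mem_laurentBaseChange σ hx'⟩ :
          laurentBaseChange L (IntermediateField.adjoin ℚ S))⁻¹ :=
      Subtype.ext (map_inv₀ (coeffMap (σ : L →+* L)) x)
    rw [e₁, e₂, map_inv₀, map_inv₀, IntermediateField.coe_inv, IntermediateField.coe_inv,
      map_inv₀, ihx hx']
  | mul x y hx hy ihx ihy =>
    intro hxy
    have hx' : x ∈ laurentBaseChange L (IntermediateField.adjoin ℚ S) := hx
    have hy' : y ∈ laurentBaseChange L (IntermediateField.adjoin ℚ S) := hy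
    have e₁ : (⟨x * y, hxy⟩ : laurentBaseChange L (IntermediateField.adjoin ℚ S))
        = ⟨x, hx'⟩ * ⟨y, hy'⟩ := rfl
    have e₂ : (⟨coeffMap (σ : L →+* L) (x * y), coeffMap_mem_laurentBaseChange σ hxy⟩ :
          laurentBaseChange L (IntermediateField.adjoin ℚ S))
        = ⟨coeffMap (σ : L →+* L) x, coeffMap_mem_laurentBaseChange σ hx'⟩
          * ⟨coeffMap (σ : L →+* L) y, coeffMap_mem_laurentBaseChange σ hy'⟩ :=
      Subtype.ext (map_mul (coeffMap (σ : L →+* L)) x y)
    rw [e₁, e₂, map_mul, map_mul, MulMemClass.coe_mul, MulMemClass.coe_mul, map_mul,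
      ihx hx', ihy hy']

/-- **An `L`-algebra homomorphism `L ⊗ F₀ → L ⊗ F₁` sending the rational generators of `F₀` to
rational series commutes with the coefficientwise action of `Aut(L/ℚ)`.** -/
theorem intertwines_of_rational {S : Set (LaurentSeries ℚ)}
    (δ : laurentBaseChange L (IntermediateField.adjoin ℚ S) →ₐ[L] laurentBaseChange L F₁)
    (hδ : ∀ z (hz : z ∈ S), ∃ z' : LaurentSeries ℚ,
      ((δ ⟨coeffEmb L z, coeffEmb_mem_laurentBaseChange L
        (IntermediateField.subset_adjoin ℚ S hz)⟩ : laurentBaseChange L F₁) : LaurentSeries L)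
        = coeffEmb L z')
    (σ : L ≃ₐ[ℚ] L) :
    SemilinearAut.IntertwinesAlong (δ : _ →+* _)
      (arithmeticGalois (IntermediateField.adjoin ℚ S) σ) (arithmeticGalois F₁ σ) := by
  intro y
  apply Subtype.ext
  rw [coe_arithmeticGalois_smul]
  exact coeffMap_apply_of_rational δ hδ σ (y : LaurentSeries L) y.2

end Rational

/-! ### The degeneracy maps and the diamond automorphisms -/

section Along

variable (M : ℕ) [NeZero M] {L : Type*} [Field L] [Algebra ℚ L]

/-- `α` (the inclusion of function fields) commutes with the coefficientwise Galois action -/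
theorem intertwines_alpha1 (ℓ : ℕ) [NeZero ℓ] (σ : L ≃ₐ[ℚ] L) :
    SemilinearAut.IntertwinesAlong ((alpha1 M ℓ L : _ →ₐ[L] _) : _ →+* _)
      (arithmeticGalois (F1 M) σ) (arithmeticGalois (F1p M ℓ) σ) := by
  intro x
  apply Subtype.ext
  rw [coe_arithmeticGalois_smul]
  show coeffMap (σ : L →+* L) ((alpha1 M ℓ L x : _) : LaurentSeries L)
    = ((alpha1 M ℓ L (arithmeticGalois (F1 M) σ • x) : _) : LaurentSeries L)
  rw [coe_alpha1, coe_alpha1, coe_arithmeticGalois_smul]

/-- `β` (`q ↦ q^ℓ`) commutes with the coefficientwise Galois action -/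
theorem intertwines_beta1 (ℓ : ℕ) [NeZero ℓ] (σ : L ≃ₐ[ℚ] L) :
    SemilinearAut.IntertwinesAlong ((beta1 M ℓ L : _ →ₐ[L] _) : _ →+* _)
      (arithmeticGalois (F1 M) σ) (arithmeticGalois (F1p M ℓ) σ) := by
  intro x
  apply Subtype.ext
  rw [coe_arithmeticGalois_smul]
  show coeffMap (σ : L →+* L) ((beta1 M ℓ L x : _) : LaurentSeries L)
    = ((beta1 M ℓ L (arithmeticGalois (F1 M) σ • x) : _) : LaurentSeries L)
  rw [coe_beta1, coe_beta1, coe_arithmeticGalois_smul, coeffMap_qExpand]

/-- a diamond automorphism commutes with the coefficientwise Galois action -/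
theorem intertwines_of_isDiamondAut {d : (ZMod M)ˣ}
    {δ : laurentBaseChange L (F1 M) ≃ₐ[L] laurentBaseChange L (F1 M)}
    (hδ : IsDiamondAut M L d δ) (σ : L ≃ₐ[ℚ] L) :
    SemilinearAut.IntertwinesAlong ((δ.toAlgHom : _ →ₐ[L] _) : _ →+* _)
      (arithmeticGalois (F1 M) σ) (arithmeticGalois (F1 M) σ) := by
  refine intertwines_of_rational (S := divisorExpansions M ∪ frickeGenerators M)
    (F₁ := F1 M) δ.toAlgHom ?_ σ
  rintro z (hz | hz)
  · obtain ⟨e, hne, hdvd, rfl⟩ := hz
    have : NeZero e := hne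
    exact ⟨qExpand ℚ e jq, congrArg Subtype.val (hδ.1 e inferInstance hdvd _ rfl)⟩
  · obtain ⟨a, ha, rfl⟩ := hz
    have hda : (d : ZMod M) * a ≠ 0 := fun h => ha (by
      have := congrArg (fun t => ((d⁻¹ : (ZMod M)ˣ) : ZMod M) * t) h
      simpa using this)
    exact ⟨frickeH ℚ M ((d : ZMod M) * a),
      congrArg Subtype.val (hδ.2 a ha _ ⟨_, coeffEmb_mem_laurentBaseChange L
        (frickeH_mem_F1 M hda)⟩ rfl rfl)⟩

/-- **`⟨d⟩^*` commutes with the coefficientwise Galois action** (unconditionally) -/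
theorem intertwines_diamondAut (d : (ZMod M)ˣ) (σ : L ≃ₐ[ℚ] L) :
    SemilinearAut.IntertwinesAlong (((diamondAut M L d).toAlgHom : _ →ₐ[L] _) : _ →+* _)
      (arithmeticGalois (F1 M) σ) (arithmeticGalois (F1 M) σ) := by
  by_cases h : ∃ δ, IsDiamondAut M L d δ
  · exact intertwines_of_isDiamondAut M (isDiamondAut_diamondAut M L h) σ
  · intro x
    have e : diamondAut M L d = AlgEquiv.refl := by rw [diamondAut, dif_neg h]
    rw [e]
    rfl

/-- the identity commutes with the coefficientwise Galois action -/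
theorem intertwines_id (σ : L ≃ₐ[ℚ] L) :
    SemilinearAut.IntertwinesAlong
      ((AlgHom.id L (laurentBaseChange L (F1 M)) : _ →ₐ[L] _) : _ →+* _)
      (arithmeticGalois (F1 M) σ) (arithmeticGalois (F1 M) σ) := fun _ => rfl

variable (L)

/-- **`T_ℓ` over any field `L ⊇ ℚ` commutes with `Aut(L/ℚ)`.** -/
theorem hecke1_smul (ℓ : ℕ) [NeZero ℓ] (σ : L ≃ₐ[ℚ] L)
    (x : Pic0 L (laurentBaseChange L (F1 M))) :
    hecke1 M ℓ L (σ • x) = σ • hecke1 M ℓ L x := by
  rw [galois_smul_pic0_def, galois_smul_pic0_def]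
  exact corrOp_smul (intertwines_alpha1 M ℓ σ) (intertwines_beta1 M ℓ σ) x

/-- **`T_ℓ^*` over any field `L ⊇ ℚ` commutes with `Aut(L/ℚ)`.** -/
theorem heckeStar1_smul (ℓ : ℕ) [NeZero ℓ] (σ : L ≃ₐ[ℚ] L)
    (x : Pic0 L (laurentBaseChange L (F1 M))) :
    heckeStar1 M ℓ L (σ • x) = σ • heckeStar1 M ℓ L x := by
  rw [galois_smul_pic0_def, galois_smul_pic0_def]
  exact corrOp_smul (intertwines_beta1 M ℓ σ) (intertwines_alpha1 M ℓ σ) x

/-- **`⟨d⟩^*` over any field `L ⊇ ℚ` commutes with `Aut(L/ℚ)`.** -/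
theorem diamondPull1_smul (d : (ZMod M)ˣ) (σ : L ≃ₐ[ℚ] L)
    (x : Pic0 L (laurentBaseChange L (F1 M))) :
    diamondPull1 M L d (σ • x) = σ • diamondPull1 M L d x := by
  rw [galois_smul_pic0_def, galois_smul_pic0_def]
  exact corrOp_smul (intertwines_diamondAut M d σ) (intertwines_id M σ) x

/-- **`⟨d⟩_*` over any field `L ⊇ ℚ` commutes with `Aut(L/ℚ)`.** -/
theorem diamondPush1_smul (d : (ZMod M)ˣ) (σ : L ≃ₐ[ℚ] L)
    (x : Pic0 L (laurentBaseChange L (F1 M))) :
    diamondPush1 M L d (σ • x) = σ • diamondPush1 M L d x :=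
  diamondPull1_smul M L d⁻¹ σ x

end Along

/-! ### The seam -/

section Bar

local notation "GQ" => (AlgebraicClosure ℚ ≃ₐ[ℚ] AlgebraicClosure ℚ)

variable (M : ℕ) [NeZero M]

theorem hecke1Bar_smul (r : Nat.Primes) (σ : GQ) (x : J1 M) :
    hecke1Bar M r (σ • x) = σ • hecke1Bar M r x := by
  have : NeZero (r : ℕ) := ⟨r.2.ne_zero⟩
  exact hecke1_smul M (AlgebraicClosure ℚ) r σ x

theorem heckeStar1Bar_smul (r : Nat.Primes) (σ : GQ) (x : J1 M) :
    heckeStar1Bar M r (σ • x) = σ • heckeStar1Bar M r x := by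
  have : NeZero (r : ℕ) := ⟨r.2.ne_zero⟩
  exact heckeStar1_smul M (AlgebraicClosure ℚ) r σ x

theorem diamond1Bar_smul (d : (ZMod M)ˣ) (σ : GQ) (x : J1 M) :
    diamond1Bar M d (σ • x) = σ • diamond1Bar M d x :=
  diamondPush1_smul M (AlgebraicClosure ℚ) d σ x

/-- **The operators on `J₁(M)(ℚ̄)` commute with `G_ℚ`.** -/
theorem galoisCommSeam1 : GaloisCommSeam1 M :=
  ⟨hecke1Bar_smul M, heckeStar1Bar_smul M, diamond1Bar_smul M⟩

end Bar

end Fermat.Agent.S48.B.Arith.HeckeGalois1
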