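import Mathlib
import Fermat.Agent.S30.Arith.Smooth
import Fermat.Agent.S18.GaussFromHBar
import Fermat.Agent.S48.B.Defs.Spec
import Fermat.Agent.S48.B.B1.Seams

/-!
# PROJECT D (S48), part B, block B5, brick (F) F1: the Galois action on `J₁(M)(ℚ̄)` is smooth

Twin of main's `S30/Arith/Smooth` (whose `General` section is generic in the field of rational
`q`-series `F₀` and is imported as it stands).

* `smoothSeam1_of_hasPrincipalDivisors` : `Spec.SmoothSeam1 M` from principal divisors on
  `ℚ̄(X₁(M))`;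
* `smoothSeam1_of_isFF` : the same from `IsFF ℚ̄ x` for some `x` (e.g. `jgen1 M`, block B1's `Deg1`);
* `smoothSeam1_of_deg1` : from the seam `B1.Seams.Deg1 M`;
* `exists_finite_fixing_of_finite`, `exists_finite_fixing_torsion` : a finite set of points (the
  `m`-torsion, once finite) is fixed pointwise by an open subgroup.
-/

set_option autoImplicit false

namespace Fermat.Agent.S48.B.Arith.Smooth1

open AlgebraicCurve ModularCurve
open Fermat.Agent.S48.B.Defs.Model Fermat.Agent.S48.B.Defs.Spec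

local notation "Kb" => AlgebraicClosure ℚ
local notation "GQ" => (AlgebraicClosure ℚ ≃ₐ[ℚ] AlgebraicClosure ℚ)

variable (M : ℕ) [NeZero M]

/-- **Open stabilisers on `J₁(M)(ℚ̄)`** from principal divisors. -/
theorem smoothSeam1_of_hasPrincipalDivisors [HasPrincipalDivisors Kb (F1Bar M)] :
    SmoothSeam1 M := by
  intro x
  haveI : Algebra.IsAlgebraic ℚ Kb := AlgebraicClosure.isAlgebraic ℚ
  exact Fermat.Agent.S30.Arith.Smooth.exists_finite_fixing_pic0 (F1 M) x

/-- **Open stabilisers on `J₁(M)(ℚ̄)`** from a separating element. -/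
theorem smoothSeam1_of_isFF {x : F1Bar M} (hx : Fermat.Agent.S24.FF.IsFF Kb x) :
    SmoothSeam1 M := by
  haveI : HasPrincipalDivisors Kb (F1Bar M) :=
    Fermat.Agent.S18.GaussFromHBar.hasPrincipalDivisors_of_isFF hx
  exact smoothSeam1_of_hasPrincipalDivisors M

/-- **Open stabilisers on `J₁(M)(ℚ̄)`** from the degree seam of block B1. -/
theorem smoothSeam1_of_deg1 (h : Fermat.Agent.S48.B.B1.Seams.Deg1 M) : SmoothSeam1 M :=
  smoothSeam1_of_isFF M h.1

/-- A finite set of points of `J₁(M)(ℚ̄)` is fixed pointwise by `Gal(ℚ̄/E)` for a finite `E/ℚ`. -/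
theorem exists_finite_fixing_of_finite (h : SmoothSeam1 M) {s : Set (J1 M)} (hs : s.Finite) :
    ∃ E : IntermediateField ℚ Kb, FiniteDimensional ℚ E ∧
      ∀ σ : GQ, (∀ a ∈ E, σ a = a) → ∀ x ∈ s, σ • x = x := by
  classical
  choose Ef hEf hf using h
  refine ⟨⨆ x ∈ hs.toFinset, Ef x,
    IntermediateField.finiteDimensional_iSup_of_finset' fun x _ => hEf x, fun σ hσ x hx => ?_⟩
  refine hf x σ fun a ha => hσ a ?_
  have hle : Ef x ≤ ⨆ x ∈ hs.toFinset, Ef x :=
    le_iSup_of_le x (le_iSup (fun _ => Ef x) (hs.mem_toFinset.2 hx))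
  exact hle ha

/-- If the `m`-torsion of `J₁(M)(ℚ̄)` is finite, it is fixed pointwise by an open subgroup. -/
theorem exists_finite_fixing_torsion (h : SmoothSeam1 M) (m : ℕ)
    (hfin : {x : J1 M | m • x = 0}.Finite) :
    ∃ E : IntermediateField ℚ Kb, FiniteDimensional ℚ E ∧
      ∀ σ : GQ, (∀ a ∈ E, σ a = a) → ∀ x : J1 M, m • x = 0 → σ • x = x :=
  exists_finite_fixing_of_finite M h hfin

end Fermat.Agent.S48.B.Arith.Smooth1
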